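import Fermat.Agent.DeloneFaddeev.Order
import Mathlib.LinearAlgebra.FreeModule.PID
import Mathlib.LinearAlgebra.FreeModule.Finite.CardQuotient
import Mathlib.LinearAlgebra.Determinant

/-!
# Cubic rings are the rings of binary cubic forms

A ring free of rank three has a basis `1, ω, θ` with `ω θ ∈ ℤ`, and then it is the ring of a form.
A homomorphism between two such rings with matrix `M` on `(ω, θ)` gives `g ∘ M = det M • f`;
so isomorphism classes of rings are the classes of forms under the twisted action of `GL₂ (ℤ)`.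
-/

set_option autoImplicit false

noncomputable section

open Module Matrix
open FA.Thue

namespace FA.DeloneFaddeev

/-- The multiple of a form. -/
def scale (k : ℤ) (f : CubicForm) : CubicForm := ⟨k * f.a, k * f.b, k * f.c, k * f.d⟩

/-- The form at the transformed variables. -/
def actMat (f : CubicForm) (M : Matrix (Fin 2) (Fin 2) ℤ) : CubicForm :=
  f.act (M 0 0) (M 0 1) (M 1 0) (M 1 1)

/-- The twisted action of `GL₂ (ℤ)`: `g = (det M) · (f ∘ M)`. -/
def Twisted (f g : CubicForm) : Prop :=
  ∃ M : Matrix (Fin 2) (Fin 2) ℤ, IsUnit M.det ∧ g = scale M.det (actMat f M)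

theorem scale_one (f : CubicForm) : scale 1 f = f := by ext <;> simp [scale]

theorem scale_scale (k l : ℤ) (f : CubicForm) : scale k (scale l f) = scale (k * l) f := by
  ext <;> simp [scale, mul_assoc]

theorem actMat_mul (f : CubicForm) (M N : Matrix (Fin 2) (Fin 2) ℤ) :
    actMat (actMat f M) N = actMat f (M * N) := by
  ext <;> simp [actMat, CubicForm.act, CubicForm.eval, Matrix.mul_apply, Fin.sum_univ_two] <;> ring

theorem actMat_scale (k : ℤ) (f : CubicForm) (M : Matrix (Fin 2) (Fin 2) ℤ) :
    actMat (scale k f) M = scale k (actMat f M) := by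
  ext <;> simp [actMat, scale, CubicForm.act, CubicForm.eval] <;> ring

theorem actMat_one (f : CubicForm) : actMat f 1 = f := by
  ext <;> simp [actMat, CubicForm.act, CubicForm.eval]

theorem isUnit_mul_self {u : ℤ} (h : IsUnit u) : u * u = 1 := by
  rcases Int.isUnit_iff.mp h with rfl | rfl <;> rfl

/-- A form is determined by its values at four points. -/
theorem form_ext {f g : CubicForm} (h : ∀ u v : ℤ, f.eval u v = g.eval u v) : f = g := by
  have h1 := h 1 0
  have h2 := h 0 1
  have h3 := h 1 1
  have h4 := h 1 (-1)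
  simp [CubicForm.eval] at h1 h2 h3 h4
  ext
  exacts [h1, by linarith, by linarith, h2]

namespace CubicOrder

/-- The matrix on `(ω, θ)` of a homomorphism. -/
def homMat {f g : CubicForm} (φ : CubicOrder f →+* CubicOrder g) : Matrix (Fin 2) (Fin 2) ℤ :=
  !![(φ (omega f)).cw, (φ (theta f)).cw; (φ (omega f)).ct, (φ (theta f)).ct]

variable {f g : CubicForm}

theorem apply_eq (φ : CubicOrder f →+* CubicOrder g) (x : CubicOrder f) :
    φ x = (x.re : CubicOrder g) + (x.cw : CubicOrder g) * φ (omega f) +
      (x.ct : CubicOrder g) * φ (theta f) := by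
  conv_lhs => rw [eq_combination x]
  simp only [map_add, map_mul, map_intCast]

theorem apply_cw (φ : CubicOrder f →+* CubicOrder g) (x : CubicOrder f) :
    (φ x).cw = homMat φ 0 0 * x.cw + homMat φ 0 1 * x.ct := by
  rw [apply_eq φ x]
  simp [homMat]
  ring

theorem apply_ct (φ : CubicOrder f →+* CubicOrder g) (x : CubicOrder f) :
    (φ x).ct = homMat φ 1 0 * x.cw + homMat φ 1 1 * x.ct := by
  rw [apply_eq φ x]
  simp [homMat]
  ring

theorem wedge_apply (φ : CubicOrder f →+* CubicOrder g) (x : CubicOrder f) :
    wedge (φ x) = (homMat φ).det * wedge x := by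
  rw [wedge, ← map_mul, apply_cw, apply_cw, apply_ct, apply_ct, Matrix.det_fin_two, wedge]
  ring

/-- A homomorphism gives `g ∘ M = det M • f`. -/
theorem actMat_homMat (φ : CubicOrder f →+* CubicOrder g) :
    actMat g (homMat φ) = scale (homMat φ).det f := by
  refine form_ext fun u v => ?_
  have h := wedge_apply φ ⟨0, u, v⟩
  rw [wedge_eq, wedge_eq, apply_cw, apply_ct] at h
  simp only at h
  rw [actMat, CubicForm.eval_act]
  simp only [Int.cast_id]
  have e : (scale (homMat φ).det f).eval u v = (homMat φ).det * f.eval u v := by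
    simp only [CubicForm.eval, scale, Int.cast_id]; ring
  rw [e]
  linarith

/-- A basis `1, ω, θ` of a commutative ring gives a form. -/
theorem exists_form {R : Type*} [CommRing R] (b : Basis (Fin 3) ℤ R) (h0 : b 0 = 1) :
    ∃ (f : CubicForm) (e : CubicOrder f ≃+* R) (r s : ℤ),
      e (omega f) = b 1 + (r : R) ∧ e (theta f) = b 2 + (s : R) := by
  set n := b.repr (b 1 * b 2) 0
  set p := b.repr (b 1 * b 2) 1
  set q := b.repr (b 1 * b 2) 2
  have hsum : ∀ x : R, x = (b.repr x 0 : R) + (b.repr x 1 : R) * b 1 + (b.repr x 2 : R) * b 2 := by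
    intro x
    conv_lhs => rw [← b.sum_repr x, Fin.sum_univ_three, h0]
    simp only [zsmul_eq_mul, mul_one]
  set w : R := b 1 - (q : R) with hw
  set t : R := b 2 - (p : R) with ht
  have hwt : w * t = ((n + p * q : ℤ) : R) := by
    rw [hw, ht]
    push_cast
    linear_combination hsum (b 1 * b 2)
  have huniq : ∀ x y z x' y' z' : ℤ, (x : R) + (y : R) * w + (z : R) * t =
      (x' : R) + (y' : R) * w + (z' : R) * t → x = x' ∧ y = y' ∧ z = z' := by
    intro x y z x' y' z' h
    have key : ∀ x y z : ℤ, (x : R) + (y : R) * w + (z : R) * t =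
        ∑ i, ![x - y * q - z * p, y, z] i • b i := by
      intro x y z
      rw [Fin.sum_univ_three, h0]
      simp only [zsmul_eq_mul, Matrix.cons_val_zero, Matrix.cons_val_one, Matrix.cons_val,
        mul_one, hw, ht]
      push_cast
      ring
    rw [key, key] at h
    have hc := congrArg b.equivFun h
    rw [← Basis.equivFun_symm_apply, ← Basis.equivFun_symm_apply, LinearEquiv.apply_symm_apply,
      LinearEquiv.apply_symm_apply] at hc
    have e0 := congrFun hc 0
    have e1 := congrFun hc 1
    have e2 := congrFun hc 2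
    simp at e0 e1 e2
    subst e1 e2
    exact ⟨by linarith, rfl, rfl⟩
  have hspan : ∀ z : R, ∃ x y v : ℤ, z = (x : R) + (y : R) * w + (v : R) * t := fun z =>
    ⟨b.repr z 0 + b.repr z 1 * q + b.repr z 2 * p, b.repr z 1, b.repr z 2, by
      rw [hw, ht]; push_cast; linear_combination hsum z⟩
  obtain ⟨l, B, C, hww⟩ := hspan (w * w)
  obtain ⟨m, D, E, htt⟩ := hspan (t * t)
  have hwt2 : w * t = (n : R) + (p : R) * q := by rw [hwt]; push_cast; rfl
  -- associativity
  have hA : (((B * (n + p * q) + C * m : ℤ)) : R) + ((C * D : ℤ) : R) * w +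
      ((l + C * E : ℤ) : R) * t =
      ((0 : ℤ) : R) + ((n + p * q : ℤ) : R) * w + ((0 : ℤ) : R) * t := by
    rw [← hwt]
    push_cast
    linear_combination ((B : R) * 1) * (hwt2.symm) + (C : R) * htt.symm - t * hww
  have hB : (((D * l + E * (n + p * q) : ℤ)) : R) + ((m + D * B : ℤ) : R) * w +
      ((D * C : ℤ) : R) * t =
      ((0 : ℤ) : R) + ((0 : ℤ) : R) * w + ((n + p * q : ℤ) : R) * t := by
    rw [← hwt]
    push_cast
    linear_combination (E : R) * hwt2.symm + (D : R) * hww.symm - w * htt
  obtain ⟨-, hn, hl⟩ := huniq _ _ _ _ _ _ hA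
  obtain ⟨-, hm, -⟩ := huniq _ _ _ _ _ _ hB
  let f : CubicForm := ⟨-C, B, -E, D⟩
  let φ : CubicOrder f →+* R :=
    { toFun := fun x => (x.re : R) + (x.cw : R) * w + (x.ct : R) * t
      map_one' := by simp
      map_mul' := fun x y => by
        have e1 : (((n + p * q : ℤ)) : R) = (C : R) * D := by rw [← hn]; push_cast; ring
        have e2 : (l : R) = -((C : R) * E) := by
          rw [show l = -(C * E) by linarith]; push_cast; ring
        have e3 : (m : R) = -((D : R) * B) := by
          rw [show m = -(D * B) by linarith]; push_cast; ring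
        simp only [mul_re, mul_cw, mul_ct, f]
        push_cast
        linear_combination -((x.cw : R) * y.cw) * (hww + e2) -
          ((x.cw : R) * y.ct + (x.ct : R) * y.cw) * (hwt + e1) -
          ((x.ct : R) * y.ct) * (htt + e3)
      map_zero' := by simp
      map_add' := fun x y => by simp only [add_re, add_cw, add_ct]; push_cast; ring }
  have hbij : Function.Bijective φ := by
    refine ⟨fun x y h => ?_, fun z => ?_⟩
    · obtain ⟨a1, a2, a3⟩ := huniq _ _ _ _ _ _ h
      ext <;> assumption
    · obtain ⟨x, y, v, rfl⟩ := hspan z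
      exact ⟨⟨x, y, v⟩, rfl⟩
  refine ⟨f, RingEquiv.ofBijective φ hbij, -q, -p, ?_, ?_⟩
  · show (((omega f).re : ℤ) : R) + ((omega f).cw : R) * w + ((omega f).ct : R) * t = _
    rw [hw]
    simp [omega, sub_eq_add_neg]
  · show (((theta f).re : ℤ) : R) + ((theta f).cw : R) * w + ((theta f).ct : R) * t = _
    rw [ht]
    simp [theta, sub_eq_add_neg]

/-- In a ring free of rank three `1` is part of a basis. -/
theorem exists_basis_one {R : Type*} [CommRing R] (b : Basis (Fin 3) ℤ R) :
    ∃ b' : Basis (Fin 3) ℤ R, b' 0 = 1 := by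
  obtain ⟨n, snf⟩ := Submodule.smithNormalForm b (Submodule.span ℤ {(1 : R)})
  have hne : (1 : R) ≠ 0 := fun h => b.ne_zero 0 (by rw [← mul_one (b 0), h, mul_zero])
  rcases Nat.eq_zero_or_pos n with rfl | hn
  · exfalso
    have h1 : (⟨1, Submodule.mem_span_singleton_self _⟩ : Submodule.span ℤ {(1 : R)}) = 0 := by
      rw [← snf.bN.sum_repr (⟨1, Submodule.mem_span_singleton_self _⟩ :
        Submodule.span ℤ {(1 : R)})]
      simp
    exact hne (congrArg Subtype.val h1)
  set i : Fin n := ⟨0, hn⟩
  set j := snf.f i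
  obtain ⟨k, hk⟩ := Submodule.mem_span_singleton.mp (snf.bN i).2
  rw [snf.snf i] at hk
  have hk0 : k ≠ 0 := fun h => by
    subst h
    rw [zero_smul] at hk
    exact snf.bN.ne_zero i (Subtype.ext (by rw [snf.snf i, ← hk]; rfl))
  -- `1` is a multiple of the `j`-th vector
  have hone : (1 : R) = snf.bM.repr 1 j • snf.bM j := by
    refine snf.bM.ext_elem fun l => ?_
    have h := congrArg (fun x => snf.bM.repr x l) hk
    simp only [map_smul, Basis.repr_self, Finsupp.smul_apply, smul_eq_mul] at h ⊢
    rcases eq_or_ne l j with rfl | hl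
    · simp
    · rw [Finsupp.single_eq_of_ne hl, mul_zero] at h ⊢
      exact (mul_eq_zero.mp h).resolve_left hk0
  set a := snf.bM.repr 1 j
  have ha : IsUnit a := by
    have e : snf.bM j = a • (snf.bM j * snf.bM j) := by
      calc snf.bM j = snf.bM j * 1 := (mul_one _).symm
        _ = snf.bM j * (a • snf.bM j) := congrArg (snf.bM j * ·) hone
        _ = _ := mul_smul_comm _ _ _
    have h := congrArg (fun x => snf.bM.repr x j) e
    simp only [map_smul, Basis.repr_self, Finsupp.smul_apply, smul_eq_mul,
      Finsupp.single_eq_same] at h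
    exact .of_mul_eq_one _ h.symm
  refine ⟨(snf.bM.isUnitSMul (w := fun _ => a) fun _ => ha).reindex (Equiv.swap j 0), ?_⟩
  rw [Basis.reindex_apply, Equiv.symm_swap, Equiv.swap_apply_right, Basis.isUnitSMul_apply]
  exact hone.symm

/-- **Every cubic ring is the ring of a form.** -/
theorem exists_form_of_basis {R : Type*} [CommRing R] (b : Basis (Fin 3) ℤ R) :
    ∃ f : CubicForm, Nonempty (CubicOrder f ≃+* R) := by
  obtain ⟨b', h⟩ := exists_basis_one b
  obtain ⟨f, e, -⟩ := exists_form b' h
  exact ⟨f, ⟨e⟩⟩

theorem isUnit_det_homMat {f g : CubicForm} (e : CubicOrder f ≃+* CubicOrder g) :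
    IsUnit (homMat e.toRingHom).det := by
  have h : homMat e.toRingHom * homMat e.symm.toRingHom = 1 := by
    have h0 : ∀ x : CubicOrder g, e.toRingHom (e.symm.toRingHom x) = x :=
      fun x => e.apply_symm_apply x
    have k1 := apply_cw e.toRingHom (e.symm.toRingHom (omega g))
    have k2 := apply_ct e.toRingHom (e.symm.toRingHom (omega g))
    have k3 := apply_cw e.toRingHom (e.symm.toRingHom (theta g))
    have k4 := apply_ct e.toRingHom (e.symm.toRingHom (theta g))
    rw [h0] at k1 k2 k3 k4
    ext i j
    fin_cases i <;> fin_cases j <;>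
      simp [Matrix.mul_apply, Fin.sum_univ_two, homMat, omega, theta] at k1 k2 k3 k4 ⊢ <;>
      linarith
  exact .of_mul_eq_one _ (by rw [← Matrix.det_mul, h, Matrix.det_one])

/-- **The twisted classes of forms are the isomorphism classes of their rings.** -/
theorem nonempty_ringEquiv_iff (f g : CubicForm) :
    Nonempty (CubicOrder f ≃+* CubicOrder g) ↔ Twisted g f := by
  constructor
  · rintro ⟨e⟩
    have hu := isUnit_det_homMat e
    refine ⟨homMat e.toRingHom, hu, ?_⟩
    rw [actMat_homMat, scale_scale, isUnit_mul_self hu, scale_one]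
  · rintro ⟨M, hu, hf⟩
    have hM : M * (M.det • M.adjugate) = 1 := by
      rw [Matrix.mul_smul, Matrix.mul_adjugate, smul_smul, isUnit_mul_self hu, one_smul]
    set N := M.det • M.adjugate with hN
    have hM' : N * M = 1 := mul_eq_one_comm.mp hM
    -- the basis `1, M ω, M θ`
    let v : Fin 3 → CubicOrder g := ![1, ⟨0, M 0 0, M 1 0⟩, ⟨0, M 0 1, M 1 1⟩]
    have m00 := congrFun (congrFun hM 0) 0
    have m01 := congrFun (congrFun hM 0) 1
    have m10 := congrFun (congrFun hM 1) 0
    have m11 := congrFun (congrFun hM 1) 1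
    have n00 := congrFun (congrFun hM' 0) 0
    have n01 := congrFun (congrFun hM' 0) 1
    have n10 := congrFun (congrFun hM' 1) 0
    have n11 := congrFun (congrFun hM' 1) 1
    simp [Matrix.mul_apply, Fin.sum_univ_two] at m00 m01 m10 m11 n00 n01 n10 n11
    let L : CubicOrder g ≃+ (Fin 3 → ℤ) :=
      { toFun := fun x => ![x.re, N 0 0 * x.cw + N 0 1 * x.ct, N 1 0 * x.cw + N 1 1 * x.ct]
        invFun := fun c => ⟨c 0, M 0 0 * c 1 + M 0 1 * c 2, M 1 0 * c 1 + M 1 1 * c 2⟩
        left_inv := fun x => by
          ext <;> simp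
          · linear_combination x.cw * m00 + x.ct * m01
          · linear_combination x.cw * m10 + x.ct * m11
        right_inv := fun c => by
          funext i; fin_cases i <;> simp
          · linear_combination c 1 * n00 + c 2 * n01
          · linear_combination c 1 * n10 + c 2 * n11
        map_add' := fun x y => by
          funext i; fin_cases i <;> simp <;> ring }
    let b : Basis (Fin 3) ℤ (CubicOrder g) := Basis.ofEquivFun L.toIntLinearEquiv
    have hb : ∀ i, b i = v i := fun i => by
      rw [Basis.coe_ofEquivFun]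
      fin_cases i <;> ext <;> simp [L, v]
    obtain ⟨h, e, r, s, hw, ht⟩ := exists_form b (by rw [hb]; rfl)
    have hmat : homMat e.toRingHom = M := by
      ext i j
      fin_cases i <;> fin_cases j <;> simp [homMat, hw, ht, hb, v]
    have hh := actMat_homMat e.toRingHom
    rw [hmat] at hh
    have : f = h := by rw [hf, hh, scale_scale, isUnit_mul_self hu, scale_one]
    subst this
    exact ⟨e⟩

/-- The index of an embedding is the absolute value of its determinant. -/
theorem index_range (φ : CubicOrder f →+* CubicOrder g) (hφ : Function.Injective φ) :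
    (φ.toAddMonoidHom.range).index = (homMat φ).det.natAbs := by
  set bN : Basis (Fin 3) ℤ φ.toAddMonoidHom.range :=
    (basis f).map (φ.toAddMonoidHom.ofInjective hφ).toIntLinearEquiv
  rw [AddSubgroup.index_eq_natAbs_det (basis g) _ bN]
  congr 1
  rw [Basis.det_apply, Matrix.det_fin_three, Matrix.det_fin_two]
  have e : ∀ i j, (basis g).toMatrix (fun k => (bN k : CubicOrder g)) i j =
      ![(φ (basis f j)).re, (φ (basis f j)).cw, (φ (basis f j)).ct] i := fun i j => by
    rw [Basis.toMatrix_apply, basis_repr]
    rfl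
  simp only [e, basis_zero, basis_one, basis_two, map_one]
  simp [homMat]

end CubicOrder

end FA.DeloneFaddeev
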