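import Fermat.Agent.DeloneFaddeev.Classify
import Mathlib.RingTheory.Adjoin.Basic
import Mathlib.LinearAlgebra.Matrix.Charpoly.Coeff

/-!
# Domains and monogenic rings

`CubicOrder f` is a domain exactly for a form with no non-trivial integral zero, and is generated
by one element exactly when `f` represents `1`.
-/

set_option autoImplicit false

noncomputable section

open Module Matrix Polynomial
open FA.Thue

namespace FA.DeloneFaddeev.CubicOrder

variable {f : CubicForm}

/-- The matrix of multiplication by `x`. -/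
def mulMat (x : CubicOrder f) : Matrix (Fin 3) (Fin 3) ℤ :=
  Algebra.leftMulMatrix (basis f) x

theorem mulMat_mulVec (x y : CubicOrder f) :
    mulMat x *ᵥ ⇑((basis f).repr y) = ⇑((basis f).repr (x * y)) :=
  Algebra.leftMulMatrix_mulVec_repr (basis f) x y

/-- The cubic relation of an element. -/
theorem cubic_relation (x : CubicOrder f) :
    ∃ A B : ℤ, x * (x * x) + (A : CubicOrder f) * (x * x) + (B : CubicOrder f) * x +
      (((mulMat x).charpoly.coeff 0 : ℤ) : CubicOrder f) = 0 := by
  set P := (mulMat x).charpoly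
  have hP : P.natDegree = 3 := by
    rw [Matrix.charpoly_natDegree_eq_dim]; rfl
  have hm : P.Monic := Matrix.charpoly_monic _
  have h0 : Polynomial.aeval x P = 0 := by
    apply Algebra.leftMulMatrix_injective (basis f)
    rw [← Polynomial.aeval_algHom_apply, map_zero]
    exact Matrix.aeval_self_charpoly _
  rw [Polynomial.aeval_eq_sum_range, hP] at h0
  simp only [Finset.sum_range_succ, Finset.sum_range_zero, zero_add, zsmul_eq_mul, pow_zero,
    mul_one, pow_one] at h0
  have h3 : P.coeff 3 = 1 := hP ▸ hm.coeff_natDegree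
  rw [h3] at h0
  refine ⟨P.coeff 2, P.coeff 1, ?_⟩
  push_cast at h0
  linear_combination h0

theorem det_mulMat_eq_zero {x y : CubicOrder f} (hy : y ≠ 0) (h : x * y = 0) :
    (mulMat x).det = 0 := by
  refine Matrix.exists_mulVec_eq_zero_iff.mp ⟨⇑((basis f).repr y), fun e => hy ?_, ?_⟩
  · exact (basis f).repr.map_eq_zero_iff.mp (DFunLike.coe_injective e)
  · rw [mulMat_mulVec, h, map_zero]; rfl

theorem wedge_ne_zero (hf : f.Anisotropic) {x : CubicOrder f} (h : x.cw ≠ 0 ∨ x.ct ≠ 0) :
    wedge x ≠ 0 := by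
  rw [wedge_eq, neg_ne_zero]
  intro e
  obtain ⟨h1, h2⟩ := hf _ _ e
  omega

theorem eq_zero_or_eq_zero (hf : f.Anisotropic) {x y : CubicOrder f} (h : x * y = 0) :
    x = 0 ∨ y = 0 := by
  by_contra hcon
  push Not at hcon
  obtain ⟨hx, hy⟩ := hcon
  by_cases hsc : x.cw = 0 ∧ x.ct = 0
  · have e : x = (x.re : CubicOrder f) := by ext <;> simp [hsc]
    have hre : x.re ≠ 0 := fun h0 => hx (by rw [e, h0, Int.cast_zero])
    rw [e, ← zsmul_eq_mul] at h
    refine hy ((basis f).ext_elem fun i => ?_)
    have := congrArg (fun z => (basis f).repr z i) h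
    simp only [map_smul, Finsupp.smul_apply, smul_eq_mul, map_zero, Finsupp.zero_apply] at this
    simpa [hre] using this
  have hnon : x.cw ≠ 0 ∨ x.ct ≠ 0 := by omega
  obtain ⟨A, B, hrel⟩ := cubic_relation x
  have hc0 : (mulMat x).charpoly.coeff 0 = 0 := by
    have := Matrix.det_eq_sign_charpoly_coeff (mulMat x)
    rw [det_mulMat_eq_zero hy h] at this
    simpa using this.symm
  rw [hc0, Int.cast_zero, add_zero] at hrel
  set z := x * x + (A : CubicOrder f) * x + (B : CubicOrder f)
  have hxz : x * z = 0 := by linear_combination hrel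
  have hzz : z * z = (B : CubicOrder f) * z := by
    linear_combination (x + (A : CubicOrder f)) * hxz
  have hw := wedge_ne_zero hf hnon
  have hz : z.cw ≠ 0 ∨ z.ct ≠ 0 := by
    by_contra hz
    push Not at hz
    apply hw
    simp [z] at hz
    simp only [wedge, mul_cw, mul_ct]
    linear_combination x.cw * hz.2 - x.ct * hz.1
  refine wedge_ne_zero hf hz ?_
  rw [wedge, hzz]
  simp
  ring

theorem sq_of_cube {d D : ℤ} (h : d ^ 2 = D ^ 3) (hD : D ≠ 0) : IsSquare D := by
  obtain ⟨q, rfl⟩ : D ∣ d := by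
    rw [← Int.pow_dvd_pow_iff two_ne_zero, h]
    exact pow_dvd_pow _ (by norm_num)
  refine ⟨q, mul_left_cancel₀ (pow_ne_zero 2 hD) ?_⟩
  linear_combination -h

theorem not_domain {x : CubicOrder f} (hx : x.cw ≠ 0 ∨ x.ct ≠ 0) (hw : wedge x = 0) :
    ∃ y z : CubicOrder f, y ≠ 0 ∧ z ≠ 0 ∧ y * z = 0 := by
  obtain ⟨A, B, C, hA, hrel⟩ : ∃ A B C : ℤ, A ≠ 0 ∧
      (A : CubicOrder f) * (x * x) + (B : CubicOrder f) * x + (C : CubicOrder f) = 0 := by
    unfold wedge at hw
    by_cases h : x.cw = 0
    · refine ⟨x.ct, -(x * x).ct, -(x.ct * (x * x).re - (x * x).ct * x.re), by omega, ?_⟩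
      ext <;> simp only [add_re, add_cw, add_ct, mul_re, mul_cw, mul_ct, intCast_re, intCast_cw,
        intCast_ct, zero_re, zero_cw, zero_ct] at hw ⊢
      · ring
      · linear_combination -hw
      · ring
    · refine ⟨x.cw, -(x * x).cw, -(x.cw * (x * x).re - (x * x).cw * x.re), h, ?_⟩
      ext <;> simp only [add_re, add_cw, add_ct, mul_re, mul_cw, mul_ct, intCast_re, intCast_cw,
        intCast_ct, zero_re, zero_cw, zero_ct] at hw ⊢
      · ring
      · ring
      · linear_combination hw
  set D := B ^ 2 - 4 * A * C with hD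
  set y := ((2 * A : ℤ) : CubicOrder f) * x + (B : CubicOrder f) with hy
  have hyy : y * y = (D : CubicOrder f) := by
    rw [hy, hD]; push_cast
    linear_combination (4 * (A : CubicOrder f)) * hrel
  have hyn : y.cw ≠ 0 ∨ y.ct ≠ 0 := by
    rcases hx with h | h
    · left
      simp only [hy, add_cw, mul_cw, intCast_re, intCast_cw, intCast_ct, zero_mul, mul_zero,
        add_zero]
      exact mul_ne_zero (mul_ne_zero two_ne_zero hA) h
    · right
      simp only [hy, add_ct, mul_ct, intCast_re, intCast_cw, intCast_ct, zero_mul, mul_zero,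
        add_zero, sub_zero]
      exact mul_ne_zero (mul_ne_zero two_ne_zero hA) h
  have hy0 : ∀ e : ℤ, y + (e : CubicOrder f) ≠ 0 := by
    intro e he
    have h1 := congrArg (fun z : CubicOrder f => z.cw) he
    have h2 := congrArg (fun z : CubicOrder f => z.ct) he
    simp at h1 h2
    omega
  by_cases hsq : IsSquare D
  · obtain ⟨e, he⟩ := hsq
    refine ⟨y + (e : CubicOrder f), y + ((-e : ℤ) : CubicOrder f), hy0 _, hy0 _, ?_⟩
    rw [he] at hyy
    push_cast at hyy ⊢
    linear_combination hyy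
  · exfalso
    have hY : mulMat y * mulMat y = D • (1 : Matrix (Fin 3) (Fin 3) ℤ) := by
      rw [mulMat, ← map_mul, hyy, map_intCast]
      simp [zsmul_eq_mul]
    have hdet := congrArg Matrix.det hY
    rw [Matrix.det_mul, Matrix.det_smul, Matrix.det_one, mul_one, Fintype.card_fin, ← sq] at hdet
    exact hsq (sq_of_cube hdet fun h0 => hsq (h0 ▸ ⟨0, by ring⟩))

/-- **`CubicOrder f` is a domain exactly for forms without non-trivial zero.** -/
theorem isDomain_iff (f : CubicForm) : IsDomain (CubicOrder f) ↔ f.Anisotropic := by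
  constructor
  · intro _ X Y h
    by_contra hne
    obtain ⟨y, z, hy, hz, hyz⟩ := not_domain (f := f) (x := ⟨0, X, Y⟩)
      (show X ≠ 0 ∨ Y ≠ 0 by omega) (by rw [wedge_eq]; exact neg_eq_zero.mpr h)
    exact (mul_eq_zero.mp hyz).elim hy hz
  · intro hf
    have : Nontrivial (CubicOrder f) := ⟨⟨1, 0, fun h => by simpa using congrArg (·.re) h⟩⟩
    have : NoZeroDivisors (CubicOrder f) := ⟨fun h => eq_zero_or_eq_zero hf h⟩
    exact NoZeroDivisors.to_isDomain _

theorem adjoin_eq_top_iff (x : CubicOrder f) :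
    Algebra.adjoin ℤ ({x} : Set (CubicOrder f)) = ⊤ ↔ IsUnit (wedge x) := by
  have hP3 : (mulMat x).charpoly.natDegree = 3 := by
    rw [Matrix.charpoly_natDegree_eq_dim]; rfl
  have hP0 : Polynomial.aeval x (mulMat x).charpoly = 0 := by
    apply Algebra.leftMulMatrix_injective (basis f)
    rw [← Polynomial.aeval_algHom_apply, map_zero]
    exact Matrix.aeval_self_charpoly _
  constructor
  · intro htop
    have hspan : ∀ y : CubicOrder f, ∃ A B C : ℤ,
        y = (A : CubicOrder f) + (B : CubicOrder f) * x + (C : CubicOrder f) * (x * x) := by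
      intro y
      obtain ⟨Q, rfl⟩ : ∃ Q : ℤ[X], Polynomial.aeval x Q = y := by
        have := (Algebra.adjoin_singleton_eq_range_aeval ℤ x) ▸
          (htop ▸ (Algebra.mem_top : y ∈ (⊤ : Subalgebra ℤ (CubicOrder f))))
        exact this
      set P := (mulMat x).charpoly
      have hlt : (Q %ₘ P).natDegree < 3 := hP3 ▸
        Polynomial.natDegree_modByMonic_lt Q (Matrix.charpoly_monic _)
          (fun h => by rw [h, Polynomial.natDegree_one] at hP3; omega)
      refine ⟨(Q %ₘ P).coeff 0, (Q %ₘ P).coeff 1, (Q %ₘ P).coeff 2, ?_⟩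
      conv_lhs => rw [← Polynomial.modByMonic_add_div Q P]
      rw [map_add, map_mul, hP0, zero_mul, add_zero, Polynomial.aeval_eq_sum_range' hlt]
      simp only [Finset.sum_range_succ, Finset.sum_range_zero, zero_add, zsmul_eq_mul, pow_zero,
        mul_one, pow_one, sq]
    obtain ⟨A, B, C, hw⟩ := hspan (omega f)
    obtain ⟨A', B', C', ht⟩ := hspan (theta f)
    have w1 := congrArg (fun z : CubicOrder f => z.cw) hw
    have w2 := congrArg (fun z : CubicOrder f => z.ct) hw
    have t1 := congrArg (fun z : CubicOrder f => z.cw) ht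
    have t2 := congrArg (fun z : CubicOrder f => z.ct) ht
    simp [omega, theta] at w1 w2 t1 t2
    refine .of_mul_eq_one (B * C' - C * B') ?_
    simp only [wedge, mul_cw, mul_ct]
    rw [show (1 : ℤ) = 1 * 1 - 0 * 0 by norm_num]
    nth_rewrite 1 [w1]
    nth_rewrite 1 [t2]
    nth_rewrite 1 [w2]
    nth_rewrite 1 [t1]
    ring
  · intro hu
    rw [eq_top_iff]
    intro y _
    have hx : x ∈ Algebra.adjoin ℤ ({x} : Set (CubicOrder f)) :=
      Algebra.self_mem_adjoin_singleton ℤ x
    have hc : ∀ n : ℤ, (n : CubicOrder f) ∈ Algebra.adjoin ℤ ({x} : Set (CubicOrder f)) :=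
      fun n => intCast_mem _ n
    obtain ⟨e, he⟩ : ∃ e, wedge x * e = 1 := ⟨wedge x, isUnit_mul_self hu⟩
    set B := e * (y.cw * (x * x).ct - y.ct * (x * x).cw)
    set C := e * (x.cw * y.ct - x.ct * y.cw)
    have hy : y = ((y.re - B * x.re - C * (x * x).re : ℤ) : CubicOrder f) +
        (B : CubicOrder f) * x + (C : CubicOrder f) * (x * x) := by
      rw [wedge, mul_cw, mul_ct] at he
      ext <;> simp only [add_re, add_cw, add_ct, mul_re, mul_cw, mul_ct, intCast_re, intCast_cw,
        intCast_ct, B, C]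
      · ring
      · linear_combination -y.cw * he
      · linear_combination -y.ct * he
    rw [hy]
    exact add_mem (add_mem (hc _) (mul_mem (hc _) hx)) (mul_mem (hc _) (mul_mem hx hx))

/-- **`CubicOrder f` is monogenic exactly when `f` represents `1`.** -/
theorem monogenic_iff (f : CubicForm) :
    (∃ x : CubicOrder f, Algebra.adjoin ℤ ({x} : Set (CubicOrder f)) = ⊤) ↔
      ∃ u v : ℤ, f.eval u v = 1 := by
  simp only [adjoin_eq_top_iff, wedge_eq, IsUnit.neg_iff, Int.isUnit_iff]
  constructor
  · rintro ⟨x, h | h⟩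
    · exact ⟨x.cw, x.ct, h⟩
    · refine ⟨-x.cw, -x.ct, ?_⟩
      simp only [CubicForm.eval, Int.cast_id] at h ⊢
      linarith
  · rintro ⟨u, v, h⟩
    exact ⟨⟨0, u, v⟩, Or.inl h⟩

end FA.DeloneFaddeev.CubicOrder
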