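import Fermat.Agent.DeloneFaddeev.Classify
import Fermat.Agent.Root.SummaryBirchMerriman

/-!
# The discriminant of a cubic ring; finitely many rings of a given discriminant
-/

set_option autoImplicit false

noncomputable section

open Module Polynomial
open FA.Thue FA.BirchMerriman

namespace FA.DeloneFaddeev

/-- The discriminant of a ring isomorphic to `CubicOrder f`, in any basis. -/
theorem discr_eq_disc {f : CubicForm} {R : Type*} [CommRing R] (b : Basis (Fin 3) ℤ R)
    (e : CubicOrder f ≃+* R) : Algebra.discr ℤ b = f.disc := by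
  rw [← CubicOrder.discr_basis (f := f),
    Algebra.discr_eq_discr_of_algEquiv (b : Fin 3 → R) e.symm.toIntAlgEquiv]
  exact Algebra.discr_eq_discr _ (b.map e.symm.toAddEquiv.toIntLinearEquiv) (CubicOrder.basis f)

/-- The polynomial of a form. -/
def formPoly (f : CubicForm) : ℤ[X] := C f.a * X ^ 3 + C f.b * X ^ 2 + C f.c * X + C f.d

theorem coeff_formPoly (f : CubicForm) : (formPoly f).coeff 3 = f.a ∧ (formPoly f).coeff 2 = f.b ∧
    (formPoly f).coeff 1 = f.c ∧ (formPoly f).coeff 0 = f.d := by
  simp only [formPoly, coeff_add, coeff_C_mul, coeff_X_pow, coeff_X, coeff_C]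
  norm_num

theorem natDegree_formPoly_le (f : CubicForm) : (formPoly f).natDegree ≤ 3 := by
  unfold formPoly; compute_degree

theorem formDiscr_formPoly (f : CubicForm) : formDiscr 3 (formPoly f) = f.disc := by
  obtain ⟨h3, h2, h1, h0⟩ := coeff_formPoly f
  have hle := natDegree_formPoly_le f
  set P := formPoly f
  unfold formDiscr
  by_cases ha : P.natDegree = 3
  · rw [if_pos ha, discr_of_degree_eq_three
      ((degree_eq_iff_natDegree_eq_of_pos (by norm_num)).mpr ha), h0, h1, h2, h3, CubicForm.disc]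
  have ha0 : f.a = 0 := by
    rw [← h3]
    exact coeff_eq_zero_of_natDegree_lt (by omega)
  rw [if_neg ha]
  by_cases hb : P.natDegree + 1 = 3
  · have hb2 : P.natDegree = 2 := by omega
    rw [if_pos hb, discr_of_degree_eq_two
      ((degree_eq_iff_natDegree_eq_of_pos (by norm_num)).mpr hb2), leadingCoeff, hb2, h0, h1, h2,
      CubicForm.disc, ha0]
    ring
  · have hb0 : f.b = 0 := by
      rw [← h2]
      exact coeff_eq_zero_of_natDegree_lt (by omega)
    rw [if_neg hb, CubicForm.disc, ha0, hb0]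
    ring

theorem binEval_formPoly (f : CubicForm) (u v : ℤ) :
    binEval 3 (formPoly f) u v = f.eval u v := by
  simp only [binEval, formPoly, homogenize_add, homogenize_C_mul, homogenize_C,
    homogenize_X_pow (show 3 ≤ 3 by norm_num), homogenize_X_pow (show 2 ≤ 3 by norm_num),
    homogenize_X (show 3 ≠ 0 by norm_num)]
  simp [CubicForm.eval]
  ring

/-- **Finitely many forms up to the twisted action with a given discriminant `D ≠ 0`.** -/
theorem finite_forms {D : ℤ} (hD : D ≠ 0) :
    ∃ S : Set CubicForm, S.Finite ∧ ∀ f : CubicForm, f.disc = D → ∃ g ∈ S, Twisted f g := by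
  classical
  obtain ⟨P, hP⟩ := FA.Summary.binary_cubic_forms_finite D.natAbs
  let F : ℤ[X] → CubicForm := fun g =>
    if h : ∃ G : CubicForm, ∀ u v : ℤ, G.eval u v = binEval 3 g u v then h.choose else ⟨0, 0, 0, 0⟩
  refine ⟨F '' (P : Set ℤ[X]), P.finite_toSet.image F, fun f hf => ?_⟩
  obtain ⟨g, hg, a, b, c, d, hdet, he⟩ := hP (formPoly f) (by rw [formDiscr_formPoly, hf]; exact hD)
    (by rw [formDiscr_formPoly, hf])
  refine ⟨F g, ⟨g, hg, rfl⟩, !![a, b; c, d], ?_, ?_⟩
  · rw [Matrix.det_fin_two]; simp [hdet]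
  have hval : ∀ u v : ℤ, binEval 3 g u v = (actMat f !![a, b; c, d]).eval u v := by
    intro u v
    rw [binEval, he, MvPolynomial.comp_aeval_apply, actMat, CubicForm.eval_act,
      ← binEval_formPoly, binEval]
    congr 2
    funext i
    fin_cases i <;> simp
  have hex : ∃ G : CubicForm, ∀ u v : ℤ, G.eval u v = binEval 3 g u v :=
    ⟨_, fun u v => (hval u v).symm⟩
  have hFg : F g = hex.choose := dif_pos hex
  rw [hFg, Matrix.det_fin_two]
  simp only [Matrix.of_apply, Matrix.cons_val', Matrix.cons_val_zero, Matrix.cons_val_one,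
    Matrix.cons_val_fin_one, hdet, scale_one]
  exact form_ext fun u v => (hex.choose_spec u v).trans (hval u v)

/-- **Finitely many cubic rings of a given discriminant `D ≠ 0`.** -/
theorem finite_rings {D : ℤ} (hD : D ≠ 0) :
    ∃ S : Set CubicForm, S.Finite ∧ ∀ (R : Type) [CommRing R] (b : Basis (Fin 3) ℤ R),
      Algebra.discr ℤ b = D → ∃ g ∈ S, Nonempty (CubicOrder g ≃+* R) := by
  obtain ⟨S, hS, h⟩ := finite_forms hD
  refine ⟨S, hS, fun R _ b hb => ?_⟩
  obtain ⟨f, ⟨e⟩⟩ := CubicOrder.exists_form_of_basis b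
  obtain ⟨g, hg, htw⟩ := h f ((discr_eq_disc b e).symm.trans hb)
  obtain ⟨e'⟩ := (CubicOrder.nonempty_ringEquiv_iff g f).mpr htw
  exact ⟨g, hg, ⟨e'.trans e⟩⟩

end FA.DeloneFaddeev
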