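import Fermat.Agent.DeloneFaddeev.Classify

/-!
# The criterion of Davenport and Heilbronn

`CubicOrder f` lies in a cubic ring with index divisible by the prime `p` exactly when `p` divides
all coefficients of `f` or some equivalent form has `p² ∣ a` and `p ∣ b`.
-/

set_option autoImplicit false

noncomputable section

open Module Matrix
open FA.Thue

namespace FA.DeloneFaddeev

/-- A cubic ring of a form containing `CubicOrder f` with index divisible by `p`. -/
def InLarger (p : ℕ) (f : CubicForm) : Prop :=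
  ∃ (g : CubicForm) (φ : CubicOrder f →+* CubicOrder g), Function.Injective φ ∧
    p ∣ φ.toAddMonoidHom.range.index

/-- The condition of Davenport and Heilbronn. -/
def NonmaximalForm (p : ℕ) (f : CubicForm) : Prop :=
  ((p : ℤ) ∣ f.a ∧ (p : ℤ) ∣ f.b ∧ (p : ℤ) ∣ f.c ∧ (p : ℤ) ∣ f.d) ∨
    ∃ g, Twisted f g ∧ (p : ℤ) ^ 2 ∣ g.a ∧ (p : ℤ) ∣ g.b

theorem exists_diag_aux : ∀ (n : ℕ) (M : Matrix (Fin 2) (Fin 2) ℤ), M 0 0 ≠ 0 →
    (M 0 0).natAbs = n → ∃ U V : Matrix (Fin 2) (Fin 2) ℤ, IsUnit U.det ∧ IsUnit V.det ∧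
      (U * M * V) 0 1 = 0 ∧ (U * M * V) 1 0 = 0 := by
  intro n
  induction n using Nat.strong_induction_on with
  | _ n ih =>
    intro M h0 hn
    have hsw : IsUnit (!![0, 1; 1, 0] : Matrix (Fin 2) (Fin 2) ℤ).det := by
      rw [Matrix.det_fin_two]; simp
    have hlt : ∀ x : ℤ, (x % M 0 0).natAbs < n := fun x => by
      rw [← hn]
      have h1 := Int.emod_nonneg x h0
      have h2 := Int.emod_lt_abs x h0
      rw [Int.abs_eq_natAbs] at h2
      omega
    by_cases hq : M 0 1 % M 0 0 ≠ 0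
    · set W : Matrix (Fin 2) (Fin 2) ℤ := !![1, -(M 0 1 / M 0 0); 0, 1] * !![0, 1; 1, 0]
      have h00 : (M * W) 0 0 = M 0 1 % M 0 0 := by
        simp [W, Matrix.mul_apply, Fin.sum_univ_two, Int.emod_def]; ring
      obtain ⟨U, V, hU, hV, e1, e2⟩ := ih _ (hlt (M 0 1)) (M * W) (h00 ▸ hq) (by rw [h00])
      refine ⟨U, W * V, hU, ?_, by rwa [← Matrix.mul_assoc, Matrix.mul_assoc U],
        by rwa [← Matrix.mul_assoc, Matrix.mul_assoc U]⟩
      rw [Matrix.det_mul, Matrix.det_mul]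
      exact ((by rw [Matrix.det_fin_two]; simp :
        IsUnit (!![1, -(M 0 1 / M 0 0); 0, 1] : Matrix (Fin 2) (Fin 2) ℤ).det).mul hsw).mul hV
    by_cases hr : M 1 0 % M 0 0 ≠ 0
    · set W : Matrix (Fin 2) (Fin 2) ℤ := !![0, 1; 1, 0] * !![1, 0; -(M 1 0 / M 0 0), 1]
      have h00 : (W * M) 0 0 = M 1 0 % M 0 0 := by
        simp [W, Matrix.mul_apply, Fin.sum_univ_two, Int.emod_def]; ring
      obtain ⟨U, V, hU, hV, e1, e2⟩ := ih _ (hlt (M 1 0)) (W * M) (h00 ▸ hr) (by rw [h00])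
      refine ⟨U * W, V, ?_, hV, by rwa [Matrix.mul_assoc U W M], by rwa [Matrix.mul_assoc U W M]⟩
      rw [Matrix.det_mul, Matrix.det_mul]
      exact hU.mul (hsw.mul (by rw [Matrix.det_fin_two]; simp))
    push Not at hq hr
    refine ⟨!![1, 0; -(M 1 0 / M 0 0), 1], !![1, -(M 0 1 / M 0 0); 0, 1],
      by rw [Matrix.det_fin_two]; simp, by rw [Matrix.det_fin_two]; simp, ?_, ?_⟩
    · simp [Matrix.mul_apply, Matrix.vecMul, dotProduct, Fin.sum_univ_two]
      rw [Int.emod_def] at hq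
      linarith
    · simp [Matrix.mul_apply, Matrix.vecMul, dotProduct, Fin.sum_univ_two]
      rw [Int.emod_def] at hr
      linarith

theorem exists_diag {M : Matrix (Fin 2) (Fin 2) ℤ} (hM : M.det ≠ 0) :
    ∃ U V : Matrix (Fin 2) (Fin 2) ℤ, IsUnit U.det ∧ IsUnit V.det ∧
      (U * M * V) 0 1 = 0 ∧ (U * M * V) 1 0 = 0 := by
  by_cases h : M 0 0 = 0
  · set W : Matrix (Fin 2) (Fin 2) ℤ := !![0, 1; 1, 0]
    have h1 : (W * M) 0 0 ≠ 0 := by
      simp [W, Matrix.mul_apply, Fin.sum_univ_two]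
      intro h10
      apply hM
      rw [Matrix.det_fin_two, h, h10]
      ring
    obtain ⟨U, V, hU, hV, e1, e2⟩ := exists_diag_aux _ (W * M) h1 rfl
    refine ⟨U * W, V, ?_, hV, by rwa [Matrix.mul_assoc U W M], by rwa [Matrix.mul_assoc U W M]⟩
    rw [Matrix.det_mul]
    exact hU.mul (by rw [Matrix.det_fin_two]; simp [W])
  · exact exists_diag_aux _ M h rfl

theorem Twisted.refl (f : CubicForm) : Twisted f f :=
  ⟨1, by simp, by rw [Matrix.det_one, actMat_one, scale_one]⟩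

theorem Twisted.trans {f g h : CubicForm} (h1 : Twisted f g) (h2 : Twisted g h) :
    Twisted f h := by
  obtain ⟨M, hM, rfl⟩ := h1
  obtain ⟨N, hN, rfl⟩ := h2
  refine ⟨M * N, by rw [Matrix.det_mul]; exact hM.mul hN, ?_⟩
  rw [actMat_scale, scale_scale, actMat_mul, Matrix.det_mul, mul_comm N.det]

theorem Twisted.dvd {f g : CubicForm} (h : Twisted f g) {m : ℤ} (ha : m ∣ f.a) (hb : m ∣ f.b)
    (hc : m ∣ f.c) (hd : m ∣ f.d) : m ∣ g.a ∧ m ∣ g.b ∧ m ∣ g.c ∧ m ∣ g.d := by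
  obtain ⟨a, ha⟩ := ha
  obtain ⟨b, hb⟩ := hb
  obtain ⟨c, hc⟩ := hc
  obtain ⟨d, hd⟩ := hd
  obtain ⟨M, -, rfl⟩ := h
  have e : f = scale m ⟨a, b, c, d⟩ := by ext <;> simp [scale, ha, hb, hc, hd]
  rw [e, actMat_scale, scale_scale, mul_comm, ← scale_scale]
  exact ⟨dvd_mul_right _ _, dvd_mul_right _ _, dvd_mul_right _ _, dvd_mul_right _ _⟩

theorem Twisted.symm {f g : CubicForm} (h : Twisted f g) : Twisted g f := by
  obtain ⟨e⟩ := (CubicOrder.nonempty_ringEquiv_iff g f).mpr h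
  exact (CubicOrder.nonempty_ringEquiv_iff f g).mp ⟨e.symm⟩

/-- The valuations decide. -/
theorem core_cases {p : ℕ} (hp : p.Prime) {k l a b c d A B C D k₀ l₀ : ℤ} {i j : ℕ}
    (hk : k = (p : ℤ) ^ i * k₀) (hl : l = (p : ℤ) ^ j * l₀) (hk₀ : ¬ (p : ℤ) ∣ k₀)
    (hl₀ : ¬ (p : ℤ) ∣ l₀) (hji : j ≤ i) (hi : 1 ≤ i) (ea : A * k ^ 2 = l * a) (eb : B * k = b)
    (ec : C * l = c) (ed : D * l ^ 2 = k * d) :
    ((p : ℤ) ^ 2 ∣ a ∧ (p : ℤ) ∣ b) ∨
      ((p : ℤ) ∣ a ∧ (p : ℤ) ∣ b ∧ (p : ℤ) ∣ c ∧ (p : ℤ) ∣ d) := by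
  have hP : Prime (p : ℤ) := Nat.prime_iff_prime_int.mp hp
  have hp0 : (p : ℤ) ≠ 0 := by exact_mod_cast hp.ne_zero
  have hb : (p : ℤ) ∣ b := by
    rw [← eb, hk]
    exact Dvd.dvd.mul_left (Dvd.dvd.mul_right (dvd_pow_self _ (by omega)) _) _
  obtain ⟨r, hr⟩ : ∃ r, 2 * i = j + r := ⟨2 * i - j, by omega⟩
  have ha : (p : ℤ) ^ r * (A * k₀ ^ 2) = l₀ * a := by
    refine mul_left_cancel₀ (pow_ne_zero j hp0) ?_
    rw [hk, hl, mul_pow, ← pow_mul, mul_comm i 2, hr, pow_add] at ea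
    linear_combination ea
  by_cases h2 : 2 ≤ r
  · exact Or.inl ⟨hP.pow_dvd_of_dvd_mul_left 2 hl₀ (ha ▸ Dvd.dvd.mul_right (pow_dvd_pow _ h2) _),
      hb⟩
  · obtain ⟨rfl, rfl, rfl⟩ : i = 1 ∧ j = 1 ∧ r = 1 := by omega
    refine Or.inr ⟨?_, hb, ?_, ?_⟩
    · exact (hP.dvd_or_dvd (ha ▸ (by simp : (p : ℤ) ∣ (p : ℤ) ^ 1 * (A * k₀ ^ 2)))).resolve_left hl₀
    · rw [← ec, hl]; exact Dvd.dvd.mul_left (by simp) _
    · refine (hP.dvd_or_dvd (?_ : (p : ℤ) ∣ k₀ * d)).resolve_left hk₀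
      refine ⟨D * l₀ ^ 2, mul_left_cancel₀ hp0 ?_⟩
      rw [hk, hl] at ed
      linear_combination -ed

theorem nonmaximalForm_of_inLarger {p : ℕ} (hp : p.Prime) {f : CubicForm} (h : InLarger p f) :
    NonmaximalForm p f := by
  obtain ⟨g, φ, hφ, hdvd⟩ := h
  set M := CubicOrder.homMat φ
  have hfg : actMat g M = scale M.det f := CubicOrder.actMat_homMat φ
  rw [CubicOrder.index_range φ hφ] at hdvd
  have hM0 : M.det ≠ 0 := by
    intro h0
    obtain ⟨v, hv, hv0⟩ := Matrix.exists_mulVec_eq_zero_iff.mpr h0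
    have k0 := congrFun hv0 0
    have k1 := congrFun hv0 1
    simp [Matrix.mulVec, dotProduct, Fin.sum_univ_two] at k0 k1
    set x : CubicOrder f := ⟨0, v 0, v 1⟩
    have hx : φ x = ((φ x).re : CubicOrder g) := by
      ext <;> simp [CubicOrder.apply_cw, CubicOrder.apply_ct, x, k0, k1, M]
    have := hφ (a₁ := x) (a₂ := ((φ x).re : CubicOrder f)) (by rw [map_intCast]; exact hx)
    have c1 := congrArg (fun z : CubicOrder f => z.cw) this
    have c2 := congrArg (fun z : CubicOrder f => z.ct) this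
    simp [x] at c1 c2
    exact hv (funext fun i => by fin_cases i <;> simpa)
  obtain ⟨U, V, hU, hV, e01, e10⟩ := exists_diag hM0
  set D := U * M * V with hD
  set U' := U.det • U.adjugate with hU'
  have hUU : U' * U = 1 := by
    rw [hU', Matrix.smul_mul, Matrix.adjugate_mul, smul_smul, isUnit_mul_self hU, one_smul]
  have hU'u : IsUnit U'.det := .of_mul_eq_one U.det (by rw [← Matrix.det_mul, hUU, Matrix.det_one])
  set f' := scale V.det (actMat f V) with hf'
  set g' := scale U'.det (actMat g U') with hg'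
  have hMV : M * V = U' * D := by
    rw [hD, ← Matrix.mul_assoc, ← Matrix.mul_assoc, hUU, Matrix.one_mul]
  have hkl : D.det = U.det * M.det * V.det := by rw [hD, Matrix.det_mul, Matrix.det_mul]
  have hdetU : U'.det = U.det := by
    have h := congrArg Matrix.det hUU
    rw [Matrix.det_mul, Matrix.det_one] at h
    calc U'.det = U'.det * (U.det * U.det) := by rw [isUnit_mul_self hU, mul_one]
      _ = U.det := by rw [← mul_assoc, h, one_mul]
  have key : actMat g' D = scale (D.det) f' := by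
    rw [hg', actMat_scale, actMat_mul, ← hMV, ← actMat_mul, hfg, actMat_scale, scale_scale, hf',
      scale_scale, hkl, hdetU, mul_assoc (U.det * M.det), isUnit_mul_self hV, mul_one]
  have hf'tw : Twisted f f' := ⟨V, hV, rfl⟩
  set k := D 0 0
  set l := D 1 1
  have hdet : D.det = k * l := by rw [Matrix.det_fin_two, e01, e10]; ring
  have hk0 : k ≠ 0 ∧ l ≠ 0 := by
    rw [← mul_ne_zero_iff, ← hdet, hkl]
    exact mul_ne_zero (mul_ne_zero hU.ne_zero hM0) hV.ne_zero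
  have ea := congrArg CubicForm.a key
  have eb := congrArg CubicForm.b key
  have ec := congrArg CubicForm.c key
  have ed := congrArg CubicForm.d key
  simp [actMat, CubicForm.act, CubicForm.eval, scale, e01, e10, hdet] at ea eb ec ed
  have ea' : g'.a * k ^ 2 = l * f'.a := mul_left_cancel₀ hk0.1 (by linear_combination ea)
  have ed' : g'.d * l ^ 2 = k * f'.d := mul_left_cancel₀ hk0.2 (by linear_combination ed)
  have eb' : g'.b * k = f'.b :=
    mul_left_cancel₀ (mul_ne_zero hk0.1 hk0.2) (by linear_combination eb)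
  have ec' : g'.c * l = f'.c :=
    mul_left_cancel₀ (mul_ne_zero hk0.1 hk0.2) (by linear_combination ec)
  have hpI : Prime (p : ℤ) := Nat.prime_iff_prime_int.mp hp
  have hfin : ∀ x : ℤ, x ≠ 0 → FiniteMultiplicity (p : ℤ) x := fun x hx =>
    Int.finiteMultiplicity_iff.mpr ⟨by simp [hp.ne_one], hx⟩
  obtain ⟨k₀, ek, hk₀⟩ := (hfin k hk0.1).exists_eq_pow_mul_and_not_dvd
  obtain ⟨l₀, el, hl₀⟩ := (hfin l hk0.2).exists_eq_pow_mul_and_not_dvd
  generalize multiplicity (p : ℤ) k = i at ek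
  generalize multiplicity (p : ℤ) l = j at el
  have hij : 1 ≤ i ∨ 1 ≤ j := by
    by_contra hc
    have : i = 0 ∧ j = 0 := by omega
    have hd : (p : ℤ) ∣ k * l := by
      rw [← hdet, hkl]
      exact Dvd.dvd.mul_right (Dvd.dvd.mul_left (Int.natCast_dvd.mpr hdvd) _) _
    rw [ek, el, this.1, this.2, pow_zero, one_mul, one_mul] at hd
    exact (hpI.dvd_or_dvd hd).elim hk₀ hl₀
  have hall : ((p : ℤ) ∣ f'.a ∧ (p : ℤ) ∣ f'.b ∧ (p : ℤ) ∣ f'.c ∧ (p : ℤ) ∣ f'.d) →
      NonmaximalForm p f := fun h =>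
    Or.inl (hf'tw.symm.dvd h.1 h.2.1 h.2.2.1 h.2.2.2)
  rcases le_or_gt j i with hji | hij'
  · rcases core_cases hp ek el hk₀ hl₀ hji (by omega) ea' eb' ec' ed' with h | h
    · exact Or.inr ⟨f', hf'tw, h.1, h.2⟩
    · exact hall h
  · rcases core_cases hp el ek hl₀ hk₀ hij'.le (by omega) ed' ec' eb' ea' with h | h
    · set S : Matrix (Fin 2) (Fin 2) ℤ := !![0, 1; 1, 0]
      have hS : IsUnit S.det := by rw [Matrix.det_fin_two]; simp [S]
      refine Or.inr ⟨scale S.det (actMat f' S), hf'tw.trans ⟨S, hS, rfl⟩, ?_, ?_⟩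
      · simpa [scale, actMat, CubicForm.act, CubicForm.eval, S, Matrix.det_fin_two] using h.1
      · simpa [scale, actMat, CubicForm.act, CubicForm.eval, S, Matrix.det_fin_two] using h.2
    · exact hall ⟨h.2.2.2, h.2.2.1, h.2.1, h.1⟩

theorem inLarger_of_twisted {p : ℕ} {f g : CubicForm} (h : Twisted f g) (hg : InLarger p g) :
    InLarger p f := by
  obtain ⟨e⟩ := (CubicOrder.nonempty_ringEquiv_iff f g).mpr h.symm
  obtain ⟨F, φ, hφ, hd⟩ := hg
  refine ⟨F, φ.comp e.toRingHom, hφ.comp e.injective, ?_⟩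
  convert hd using 2
  ext x
  simp only [AddMonoidHom.mem_range]
  exact ⟨fun ⟨y, hy⟩ => ⟨e y, hy⟩, fun ⟨y, hy⟩ => ⟨e.symm y, by simpa using hy⟩⟩

theorem inLarger_of_nonmaximalForm {p : ℕ} (hp : p.Prime) {f : CubicForm}
    (h : NonmaximalForm p f) : InLarger p f := by
  have hp0 : (p : ℤ) ≠ 0 := by exact_mod_cast hp.ne_zero
  rcases h with ⟨⟨a, ha⟩, ⟨b, hb⟩, ⟨c, hc⟩, ⟨d, hd⟩⟩ | ⟨g, htw, ⟨A, hA⟩, ⟨B, hB⟩⟩
  · let G : CubicForm := ⟨a, b, c, d⟩
    let φ : CubicOrder f →+* CubicOrder G :=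
      { toFun := fun x => ⟨x.re, (p : ℤ) * x.cw, (p : ℤ) * x.ct⟩
        map_one' := by ext <;> simp
        map_mul' := fun x y => by ext <;> simp [G, ha, hb, hc, hd] <;> ring
        map_zero' := by ext <;> simp
        map_add' := fun x y => by ext <;> simp <;> ring }
    have hφ : Function.Injective φ := fun x y h => by
      have h1 := congrArg (fun z : CubicOrder G => z.re) h
      have h2 := congrArg (fun z : CubicOrder G => z.cw) h
      have h3 := congrArg (fun z : CubicOrder G => z.ct) h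
      simp [φ, hp.ne_zero] at h1 h2 h3
      ext <;> assumption
    refine ⟨G, φ, hφ, ?_⟩
    rw [CubicOrder.index_range φ hφ, Matrix.det_fin_two]
    simp [CubicOrder.homMat, φ, CubicOrder.omega, CubicOrder.theta, Int.natAbs_mul]
  · refine inLarger_of_twisted htw ?_
    let G : CubicForm := ⟨A, B, g.c, g.d * p⟩
    let φ : CubicOrder g →+* CubicOrder G :=
      { toFun := fun x => ⟨x.re, (p : ℤ) * x.cw, x.ct⟩
        map_one' := by ext <;> simp
        map_mul' := fun x y => by ext <;> simp [G, hA, hB] <;> ring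
        map_zero' := by ext <;> simp
        map_add' := fun x y => by ext <;> simp <;> ring }
    have hφ : Function.Injective φ := fun x y h => by
      have h1 := congrArg (fun z : CubicOrder G => z.re) h
      have h2 := congrArg (fun z : CubicOrder G => z.cw) h
      have h3 := congrArg (fun z : CubicOrder G => z.ct) h
      simp [φ, hp.ne_zero] at h1 h2 h3
      ext <;> assumption
    refine ⟨G, φ, hφ, ?_⟩
    rw [CubicOrder.index_range φ hφ, Matrix.det_fin_two]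
    simp [CubicOrder.homMat, φ, CubicOrder.omega, CubicOrder.theta]

theorem inLarger_iff {p : ℕ} (hp : p.Prime) (f : CubicForm) :
    InLarger p f ↔ NonmaximalForm p f :=
  ⟨nonmaximalForm_of_inLarger hp, inLarger_of_nonmaximalForm hp⟩

end FA.DeloneFaddeev
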