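import Fermat.Agent.Thue.CubicForms
import Mathlib.RingTheory.Trace.Basic
import Mathlib.RingTheory.Discriminant
import Mathlib.Algebra.Ring.MinimalAxioms

/-!
# The cubic ring of a binary cubic form

`CubicOrder f` is `ℤ ⊕ ℤ ω ⊕ ℤ θ` with `ω θ = -a d`, `ω² = -a c + b ω - a θ` and
`θ² = -b d + d ω - c θ` (Levi; Delone–Faddeev). Its discriminant is that of `f`, and
`1 ∧ x ∧ x² = -f (u, v)` at `x = r + u ω + v θ`.
-/

set_option autoImplicit false

noncomputable section

open Module
open FA.Thue

namespace FA.DeloneFaddeev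

/-- The element `r + u ω + v θ`. -/
@[ext] structure CubicOrder (f : CubicForm) where
  /-- The coefficient of `1`. -/
  re : ℤ
  /-- The coefficient of `ω`. -/
  cw : ℤ
  /-- The coefficient of `θ`. -/
  ct : ℤ

namespace CubicOrder

variable {f : CubicForm}

instance : Zero (CubicOrder f) := ⟨⟨0, 0, 0⟩⟩
instance : One (CubicOrder f) := ⟨⟨1, 0, 0⟩⟩
instance : Add (CubicOrder f) := ⟨fun x y => ⟨x.re + y.re, x.cw + y.cw, x.ct + y.ct⟩⟩
instance : Neg (CubicOrder f) := ⟨fun x => ⟨-x.re, -x.cw, -x.ct⟩⟩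
instance : Mul (CubicOrder f) := ⟨fun x y =>
  ⟨x.re * y.re - f.a * f.c * (x.cw * y.cw) - f.a * f.d * (x.cw * y.ct + x.ct * y.cw) -
      f.b * f.d * (x.ct * y.ct),
    x.re * y.cw + x.cw * y.re + f.b * (x.cw * y.cw) + f.d * (x.ct * y.ct),
    x.re * y.ct + x.ct * y.re - f.a * (x.cw * y.cw) - f.c * (x.ct * y.ct)⟩⟩

@[simp] theorem zero_re : (0 : CubicOrder f).re = 0 := rfl
@[simp] theorem zero_cw : (0 : CubicOrder f).cw = 0 := rfl
@[simp] theorem zero_ct : (0 : CubicOrder f).ct = 0 := rfl
@[simp] theorem one_re : (1 : CubicOrder f).re = 1 := rfl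
@[simp] theorem one_cw : (1 : CubicOrder f).cw = 0 := rfl
@[simp] theorem one_ct : (1 : CubicOrder f).ct = 0 := rfl
@[simp] theorem add_re (x y : CubicOrder f) : (x + y).re = x.re + y.re := rfl
@[simp] theorem add_cw (x y : CubicOrder f) : (x + y).cw = x.cw + y.cw := rfl
@[simp] theorem add_ct (x y : CubicOrder f) : (x + y).ct = x.ct + y.ct := rfl
@[simp] theorem neg_re (x : CubicOrder f) : (-x).re = -x.re := rfl
@[simp] theorem neg_cw (x : CubicOrder f) : (-x).cw = -x.cw := rfl
@[simp] theorem neg_ct (x : CubicOrder f) : (-x).ct = -x.ct := rfl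
@[simp] theorem mul_re (x y : CubicOrder f) : (x * y).re =
    x.re * y.re - f.a * f.c * (x.cw * y.cw) - f.a * f.d * (x.cw * y.ct + x.ct * y.cw) -
      f.b * f.d * (x.ct * y.ct) := rfl
@[simp] theorem mul_cw (x y : CubicOrder f) : (x * y).cw =
    x.re * y.cw + x.cw * y.re + f.b * (x.cw * y.cw) + f.d * (x.ct * y.ct) := rfl
@[simp] theorem mul_ct (x y : CubicOrder f) : (x * y).ct =
    x.re * y.ct + x.ct * y.re - f.a * (x.cw * y.cw) - f.c * (x.ct * y.ct) := rfl

instance : CommRing (CubicOrder f) := CommRing.ofMinimalAxioms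
  (fun x y z => by ext <;> simp <;> ring)
  (fun x => by ext <;> simp)
  (fun x => by ext <;> simp)
  (fun x y z => by ext <;> simp <;> ring)
  (fun x y => by ext <;> simp <;> ring)
  (fun x => by ext <;> simp)
  (fun x y z => by ext <;> simp <;> ring)

/-- The element `ω`. -/
def omega (f : CubicForm) : CubicOrder f := ⟨0, 1, 0⟩

/-- The element `θ`. -/
def theta (f : CubicForm) : CubicOrder f := ⟨0, 0, 1⟩

/-- The coordinates. -/
def coordEquiv (f : CubicForm) : CubicOrder f ≃+ (Fin 3 → ℤ) where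
  toFun x := ![x.re, x.cw, x.ct]
  invFun g := ⟨g 0, g 1, g 2⟩
  left_inv x := by ext <;> rfl
  right_inv g := by funext i; fin_cases i <;> rfl
  map_add' x y := by funext i; fin_cases i <;> rfl

/-- The basis `1, ω, θ`. -/
def basis (f : CubicForm) : Basis (Fin 3) ℤ (CubicOrder f) :=
  Basis.ofEquivFun (coordEquiv f).toIntLinearEquiv

theorem basis_repr (x : CubicOrder f) (i : Fin 3) :
    (basis f).repr x i = ![x.re, x.cw, x.ct] i := by
  rw [basis, Basis.ofEquivFun_repr_apply]
  rfl

theorem basis_zero : basis f 0 = 1 := by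
  rw [basis, Basis.coe_ofEquivFun]; ext <;> simp [coordEquiv]

theorem basis_one : basis f 1 = omega f := by
  rw [basis, Basis.coe_ofEquivFun]; ext <;> simp [coordEquiv, omega]

theorem basis_two : basis f 2 = theta f := by
  rw [basis, Basis.coe_ofEquivFun]; ext <;> simp [coordEquiv, theta]

theorem zsmul_re (n : ℤ) (x : CubicOrder f) : (n • x).re = n * x.re := by
  simpa using map_zsmul (AddMonoidHom.mk' (fun y : CubicOrder f => y.re) add_re) n x

theorem zsmul_cw (n : ℤ) (x : CubicOrder f) : (n • x).cw = n * x.cw := by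
  simpa using map_zsmul (AddMonoidHom.mk' (fun y : CubicOrder f => y.cw) add_cw) n x

theorem zsmul_ct (n : ℤ) (x : CubicOrder f) : (n • x).ct = n * x.ct := by
  simpa using map_zsmul (AddMonoidHom.mk' (fun y : CubicOrder f => y.ct) add_ct) n x

@[simp] theorem intCast_re (n : ℤ) : ((n : CubicOrder f)).re = n := by
  rw [← zsmul_one n, zsmul_re, one_re, mul_one]

@[simp] theorem intCast_cw (n : ℤ) : ((n : CubicOrder f)).cw = 0 := by
  rw [← zsmul_one n, zsmul_cw, one_cw, mul_zero]

@[simp] theorem intCast_ct (n : ℤ) : ((n : CubicOrder f)).ct = 0 := by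
  rw [← zsmul_one n, zsmul_ct, one_ct, mul_zero]

theorem eq_combination (x : CubicOrder f) :
    x = (x.re : CubicOrder f) + (x.cw : CubicOrder f) * omega f +
      (x.ct : CubicOrder f) * theta f := by
  ext <;> simp [omega, theta]

/-- `1 ∧ x ∧ x²`. -/
def wedge (x : CubicOrder f) : ℤ := x.cw * (x * x).ct - x.ct * (x * x).cw

/-- **The index form** is `-f`. -/
theorem wedge_eq (x : CubicOrder f) : wedge x = -f.eval x.cw x.ct := by
  simp only [wedge, mul_cw, mul_ct, CubicForm.eval, Int.cast_id]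
  ring

theorem trace_eq (x : CubicOrder f) :
    Algebra.trace ℤ (CubicOrder f) x = 3 * x.re + f.b * x.cw - f.c * x.ct := by
  rw [Algebra.trace_eq_matrix_trace (basis f), Matrix.trace, Fin.sum_univ_three]
  simp only [Matrix.diag, Algebra.leftMulMatrix_eq_repr_mul, basis_repr, basis_zero, basis_one,
    basis_two]
  simp [omega, theta]
  ring

/-- **The discriminant of the ring is the discriminant of the form.** -/
theorem discr_basis : Algebra.discr ℤ (basis f) = f.disc := by
  rw [Algebra.discr_def, Matrix.det_fin_three]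
  simp only [Algebra.traceMatrix_apply, Algebra.traceForm_apply, trace_eq, basis_zero, basis_one,
    basis_two]
  simp [omega, theta, CubicForm.disc]
  ring

end CubicOrder

end FA.DeloneFaddeev
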